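/-
S15, block HG, part INST (owner helper64): the contract `LocN N (r ^ j)` at prime power level.
Variant of helper35's `S15/LocN/Main.lean` (same proof "by weights", with `r` replaced by `r ^ j`).
-/
import Fermat.Agent.S15.LocN.Contract
import Fermat.Agent.S34.Nodal.Inst.Top.Close

set_option autoImplicit false

noncomputable section

namespace Fermat.Agent.S15.HG.Inst

open ModularCurve AlgebraicCurve Fermat.Agent.S24 Fermat.Agent.S24.B Fermat.Agent.GAL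
  Fermat.Agent.GAL.E Fermat.Agent.C1 Fermat.Agent.S27 Fermat.Agent.S19.Weil Fermat.Agent.S17.W
  Fermat.Agent.S15.LocN

/-- Arithmetic: a root of unity of order a power of `r` with `ζ ^ c = 1`, `0 < c < r ^ m`, is killed by
`r ^ m`. -/
theorem pow_eq_one_of_weights_pow {K : Type*} [Field K] {ζ : K} {r a m c : ℕ} (hr : r.Prime)
    (h1 : ζ ^ (r ^ a) = 1) (hc : 0 < c) (hcm : c < r ^ m) (h2 : ζ ^ c = 1) :
    ζ ^ (r ^ m) = 1 := by
  have hd1 : orderOf ζ ∣ r ^ a := orderOf_dvd_of_pow_eq_one h1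
  have hd2 : orderOf ζ ∣ c := orderOf_dvd_of_pow_eq_one h2
  obtain ⟨j, -, hjo⟩ := (Nat.dvd_prime_pow hr).1 hd1
  have hjm : j ≤ m := by
    by_contra hcon
    have hle : r ^ m ≤ r ^ j := Nat.pow_le_pow_right hr.pos (by omega)
    rw [hjo] at hd2
    have := Nat.le_of_dvd hc hd2
    omega
  apply orderOf_dvd_iff_pow_eq_one.1
  rw [hjo]
  exact pow_dvd_pow r hjm

variable {M q : ℕ} [NeZero M] [NeZero q]

/-- **(N-ISO)**, level `M * q`, exponent `r ^ j`. -/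
theorem weil_inertia_eq_one_mul_pow (hT : NodalTarget) (hq : q.Prime) (hqM : ¬ q ∣ M)
    {A : ValuationSubring Kbar} (hA : A.LiesOverPrime q) {r : ℕ} (hr : r.Prime) (hrq : r ≠ q)
    (j : ℕ)
    (R R' : JZero (M * q)) (hR : ∀ σ : GQ, σ • (r ^ j • R) = r ^ j • R)
    (hR' : ∀ σ : GQ, σ • (r ^ j • R') = r ^ j • R') (τ τ' : GQ) (hτ : τ ∈ A.inertiaSubgroupIn ℚ)
    (hτ' : τ' ∈ A.inertiaSubgroupIn ℚ) : weil (r ^ j) (τ • R - R) (τ' • R' - R') = 1 := by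
  obtain ⟨D⟩ := nonempty_alData M q hq hqM
  have : NeZero (M * q) := ⟨mul_ne_zero (NeZero.ne M) (NeZero.ne q)⟩
  -- the exponent
  set c : ℕ := (q ^ 2) * (q ^ 2) - q ^ 2 with hc
  have hq2 : 1 < q ^ 2 := Nat.one_lt_pow two_ne_zero hq.one_lt
  have hcpos : 0 < c := by
    have : q ^ 2 * 1 < q ^ 2 * q ^ 2 := Nat.mul_lt_mul_of_pos_left hq2 (by omega)
    omega
  set k : ℕ := r ^ c with hk
  have hkpos : 0 < k := pow_pos hr.pos _
  have hjpos : 0 < r ^ j := pow_pos hr.pos _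
  have hn : 0 < r ^ j * k := Nat.mul_pos hjpos hkpos
  have hck : c < k := Nat.lt_pow_self hr.one_lt
  have hqn : ¬ q ∣ r ^ j * k := by
    intro h
    have h1 : q ∣ r ^ (j + c) := by rwa [pow_add]
    exact hrq ((Nat.prime_dvd_prime_iff_eq hq hr).1 (hq.dvd_of_dvd_pow h1)).symm
  -- toric classes
  have tor : ∀ (S : JZero (M * q)), (∀ σ : GQ, σ • (r ^ j • S) = r ^ j • S) → ∀ t : GQ,
      t ∈ A.inertiaSubgroupIn ℚ →
      ∃ z : JZero (M * q), IsTorJ D A (r ^ j * k) z ∧ k • z = t • S - S := by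
    intro S hS t ht
    obtain ⟨Sm, hSm⟩ := exists_nsmul_eq_JZero (M * q) k hkpos S
    obtain ⟨D₀, hD₀, hfix⟩ := exists_fixed_divisor (M * q) (r ^ j • S) hS
    refine ⟨t • Sm - Sm, isTorJ_sub D hq hA hn t ht (D₀ : Divisor Kbar (FN (M * q))) D₀.2
      (hfix t) Sm ?_, ?_⟩
    · rw [mul_comm (r ^ j) k, mul_nsmul, hSm, ← hD₀, cls_eq_mk D₀.2]
    · rw [nsmul_sub, ← gal_nsmul, hSm]
  obtain ⟨x, hx, hxR⟩ := tor R hR τ hτ
  obtain ⟨y, hy, hyR⟩ := tor R' hR' τ' hτ'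
  have hx0 := hx.zsmul_eq_zero
  have hy0 := hy.zsmul_eq_zero
  rw [← hxR, ← hyR, weil_tower hjpos hkpos hx0 hy0]
  have hζ0 : weil (r ^ j * k) x y ≠ 0 := weil_ne_zero hn x y
  have hw := weil_pow_of_isTorJ hT hq hqM hA hn hqn hx hy
  have h2 : weil (r ^ j * k) x y ^ c = 1 := by
    have h3 : weil (r ^ j * k) x y ^ (c + q ^ 2) = weil (r ^ j * k) x y ^ q ^ 2 := by
      rw [← pow_mul] at hw
      have : c + q ^ 2 = q ^ 2 * q ^ 2 := by omega
      rw [this]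
      exact hw
    rw [pow_add] at h3
    exact (mul_eq_right₀ (pow_ne_zero _ hζ0)).mp h3
  have h1 : weil (r ^ j * k) x y ^ (r ^ (j + c)) = 1 := by
    rw [pow_add]
    exact weil_pow_eq_one hn hx0 hy0
  exact pow_eq_one_of_weights_pow hr h1 hcpos hck h2

/-- **(N-ISO)**, prime level, exponent `r ^ j`. -/
theorem weil_inertia_eq_one_pow (hT : NodalTarget) {N : ℕ} [NeZero N] (hN : N.Prime)
    {A : ValuationSubring Kbar} (hA : A.LiesOverPrime N) {r : ℕ} (hr : r.Prime) (hrN : r ≠ N)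
    (j : ℕ)
    (R R' : JZero N) (hR : ∀ σ : GQ, σ • (r ^ j • R) = r ^ j • R)
    (hR' : ∀ σ : GQ, σ • (r ^ j • R') = r ^ j • R') (τ τ' : GQ) (hτ : τ ∈ A.inertiaSubgroupIn ℚ)
    (hτ' : τ' ∈ A.inertiaSubgroupIn ℚ) : weil (r ^ j) (τ • R - R) (τ' • R' - R') = 1 := by
  have key : ∀ L : ℕ, L = 1 * N → ∀ (R R' : JZero L), (∀ σ : GQ, σ • (r ^ j • R) = r ^ j • R) →
      (∀ σ : GQ, σ • (r ^ j • R') = r ^ j • R') →
      weil (r ^ j) (τ • R - R) (τ' • R' - R') = 1 := by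
    rintro _ rfl R R' hR hR'
    exact weil_inertia_eq_one_mul_pow (M := 1) (q := N) hT hN
      (fun h => hN.one_lt.ne' (Nat.dvd_one.1 h)) hA hr hrN j R R' hR hR' τ τ' hτ hτ'
  exact key N (one_mul N).symm R R' hR hR'

/-- **The contract `LocN`** at prime power level. -/
theorem locN_pow {N : ℕ} [NeZero N] (hN : N.Prime) {r : ℕ} (hr : r.Prime) (hrN : r ≠ N) (j : ℕ) :
    LocN N (r ^ j) :=
  fun _ hA τ hτ τ' hτ' R R' hR hR' =>
    weil_inertia_eq_one_pow S34.Nodal.Inst.Top.nodalTarget hN hA hr hrN j R R' hR hR' τ τ' hτ hτ'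

end Fermat.Agent.S15.HG.Inst

end
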